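/-
P-FF row 508 (FF-P2), helper65: trace-dual bases for the unramified extensions.

`placeUnrBasis : PlaceUnrBasis A` for every valuation subring `A` of `ℚ̄` over a prime `l`.

Proof.  Let `D`, `I` be the decomposition and inertia groups of `A`, `I ≤ S ≤ D` with
`S ⊇ D ∩ Gal(ℚ̄/E)` for a number field `E`, and `k` the residue field of `A`.
* `D` is closed, hence `S` is closed, and `D / S` is finite.
* An element of `D` acting trivially on the residue classes of the `S`-fixed elements of `A`
  lies in `S` (relative inertia, helper8's `exists_mem_inv_mul_mem_inertia`).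
* Hence the characters `x ↦ residue (σ_q x)` of the monoid of `S`-fixed elements of `A`
  (`q ∈ D / S`) are pairwise distinct, so linearly independent over `k` (Dedekind), so there
  are `S`-fixed `θ_j ∈ A` with `det (σ_q θ_j)` a unit of `A`.
* `θ'` is the column of the inverse matrix at the trivial coset; it is fixed by `S` by the
  uniqueness of the solution of the linear system.
-/
import Mathlib
import Fermat.Agent.H72.FF.Interfaces
import Fermat.Agent.H8.RelGalois

set_option autoImplicit false
set_option linter.style.haveILetI false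

namespace Fermat.Agent.H65

open Module Fermat.Agent.H72.FF Fermat.Agent.H10.FF
open scoped Pointwise

/-- Linearly independent functions have a nonvanishing "Vandermonde-type" determinant: if
`f i : X → k` (`i : ι`) are linearly independent, there are points `x j` (`j : ι`) with
`det (f i (x j)) ≠ 0`. -/
theorem pub_exists_det_ne_zero {k : Type*} [Field k] {ι X : Type*} [Fintype ι] [DecidableEq ι]
    (f : ι → X → k) (hf : LinearIndependent k f) :
    ∃ x : ι → X, (Matrix.of fun i j => f i (x j)).det ≠ 0 := by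
  classical
  -- the vectors `v x = (f i x)_i`
  let v : X → (ι → k) := fun x i => f i x
  have hspan : (⊤ : Submodule k (ι → k)) ≤ Submodule.span k (Set.range v) := by
    by_contra hne
    have hlt : Submodule.span k (Set.range v) < ⊤ := lt_of_le_of_ne le_top (fun h => hne h.ge)
    obtain ⟨φ, hφ0, hφ⟩ := Submodule.exists_le_ker_of_lt_top _ hlt
    apply hφ0
    -- coefficients of `φ`
    have hsum : ∑ i, φ (Pi.single i 1) • f i = 0 := by
      funext x
      have h1 : φ (v x) = 0 := hφ (Submodule.subset_span ⟨x, rfl⟩)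
      have h2 : v x = ∑ i, f i x • (Pi.single i 1 : ι → k) := by
        funext j
        simp [v, Finset.sum_apply, Pi.single_apply]
      rw [h2, map_sum] at h1
      simp only [map_smul, smul_eq_mul] at h1
      simp only [Finset.sum_apply, Pi.smul_apply, smul_eq_mul, Pi.zero_apply]
      rw [← h1]
      exact Finset.sum_congr rfl fun i _ => mul_comm _ _
    have hc := (Fintype.linearIndependent_iff.mp hf) (fun i => φ (Pi.single i 1)) hsum
    apply LinearMap.pi_ext
    intro i c
    have : (Pi.single i c : ι → k) = c • Pi.single i 1 := by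
      funext j
      simp [Pi.single_apply]
    rw [this, map_smul, hc i]
    simp
  -- a basis inside the range of `v`
  let b := Basis.ofSpan hspan
  haveI : Fintype ((linearIndepOn_empty k id).extend (Set.empty_subset (Set.range v))) :=
    FiniteDimensional.fintypeBasisIndex b
  have hcard : Fintype.card ι =
      Fintype.card ((linearIndepOn_empty k id).extend (Set.empty_subset (Set.range v))) := by
    rw [← Module.finrank_eq_card_basis b, Module.finrank_pi]
  let e := Fintype.equivOfCardEq hcard
  have hx : ∀ j : ι, ∃ x : X, v x = b (e j) := by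
    intro j
    have := Basis.ofSpan_subset hspan ⟨e j, rfl⟩
    obtain ⟨x, hx⟩ := this
    exact ⟨x, hx⟩
  choose x hx using hx
  refine ⟨x, ?_⟩
  have hM : (Matrix.of fun i j => f i (x j)) = (Pi.basisFun k ι).toMatrix (b.reindex e.symm) := by
    ext i j
    simp only [Matrix.of_apply, Basis.toMatrix_apply, Pi.basisFun_repr, Basis.reindex_apply,
      Equiv.symm_symm]
    rw [← hx j]
  rw [hM]
  haveI := Basis.invertibleToMatrix (Pi.basisFun k ι) (b.reindex e.symm)
  exact (Matrix.isUnit_det_of_invertible _).ne_zero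

/-- The decomposition group of a valuation subring of `ℚ̄` is closed in the Krull topology. -/
theorem pub_isClosed_decomposition (A : ValuationSubring Qb) :
    IsClosed ((A.decompositionSubgroup ℚ : Subgroup GQ) : Set GQ) := by
  haveI : Algebra.IsAlgebraic ℚ Qb := AlgebraicClosure.isAlgebraic ℚ
  haveI : Algebra.IsIntegral ℚ Qb := Algebra.IsAlgebraic.isIntegral
  rw [← isOpen_compl_iff, isOpen_iff_forall_mem_open]
  intro σ hσ
  have hex : ∃ x : Qb, ¬ (σ x ∈ A ↔ x ∈ A) := by
    by_contra hcon
    push Not at hcon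
    apply hσ
    change σ ∈ A.decompositionSubgroup ℚ
    rw [ValuationSubring.decompositionSubgroup, MulAction.mem_stabilizer_iff]
    ext y
    rw [ValuationSubring.mem_pointwise_smul_iff_inv_smul_mem]
    have h1 := hcon (σ⁻¹ • y)
    have e : σ (σ⁻¹ • y) = y := by
      change (σ * σ⁻¹) y = y
      rw [mul_inv_cancel]
      rfl
    rw [e] at h1
    exact h1.symm
  obtain ⟨x, hx⟩ := hex
  have hopen : IsOpen ((MulAction.stabilizer GQ x : Subgroup GQ) : Set GQ) :=
    stabilizer_isOpen_of_isIntegral x
  refine ⟨σ • ((MulAction.stabilizer GQ x : Subgroup GQ) : Set GQ), ?_, hopen.leftCoset σ, ?_⟩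
  · rintro _ ⟨τ, hτ, rfl⟩ hmem
    apply hx
    have hτx : τ x = x := hτ
    have hmem' : σ * τ ∈ A.decompositionSubgroup ℚ := hmem
    have h2 := Fermat.Agent.H8.apply_mem_iff_of_mem_decomposition A hmem' (x := x)
    have h3 : (σ * τ) x = σ x := by
      change σ (τ x) = σ x
      rw [hτx]
    rw [h3] at h2
    exact h2
  · exact ⟨1, Subgroup.one_mem _, by simp⟩

/-- A subgroup of the decomposition group containing `D ∩ Gal(ℚ̄/E)` (`E` a number field) is
closed. -/
theorem pub_isClosed_of_le (A : ValuationSubring Qb) (S : Subgroup GQ)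
    (hSD : S ≤ A.decompositionSubgroup ℚ) (E : IntermediateField ℚ Qb) [FiniteDimensional ℚ E]
    (hE : ∀ σ ∈ A.decompositionSubgroup ℚ, (∀ x ∈ E, σ x = x) → σ ∈ S) :
    IsClosed (S : Set GQ) := by
  rw [← isOpen_compl_iff, isOpen_iff_forall_mem_open]
  intro σ hσ
  by_cases hσD : σ ∈ A.decompositionSubgroup ℚ
  · have hopen : IsOpen ((E.fixingSubgroup : Subgroup GQ) : Set GQ) :=
      IntermediateField.fixingSubgroup_isOpen E
    refine ⟨σ • ((E.fixingSubgroup : Subgroup GQ) : Set GQ), ?_, hopen.leftCoset σ, ?_⟩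
    · rintro _ ⟨τ, hτ, rfl⟩ hmem
      apply hσ
      have hmem' : σ * τ ∈ S := hmem
      have hτD : τ ∈ A.decompositionSubgroup ℚ := by
        have : τ = σ⁻¹ * (σ * τ) := by group
        rw [this]
        exact mul_mem (inv_mem hσD) (hSD hmem')
      have hτS : τ ∈ S := hE τ hτD fun x hx => by
        have := (IntermediateField.mem_fixingSubgroup_iff E τ).mp hτ x hx
        exact this
      have : σ = (σ * τ) * τ⁻¹ := by group
      change σ ∈ S
      rw [this]
      exact mul_mem hmem' (inv_mem hτS)
    · exact ⟨1, Subgroup.one_mem _, by simp⟩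
  · refine ⟨((A.decompositionSubgroup ℚ : Subgroup GQ) : Set GQ)ᶜ, ?_,
      (pub_isClosed_decomposition A).isOpen_compl, hσD⟩
    intro τ hτ hτS
    exact hτ (hSD hτS)

/-- **Relative inertia criterion.** An element of the decomposition group acting trivially on
the residue classes of the `S`-fixed elements of `A` lies in `S`. -/
theorem pub_mem_of_residue_trivial (l : ℕ) [Fact l.Prime] (A : ValuationSubring Qb)
    (hA : A.LiesOverPrime l) (S : Subgroup GQ) (hIS : A.inertiaSubgroupIn ℚ ≤ S)
    (hS : IsClosed (S : Set GQ)) {σ : GQ} (hσ : σ ∈ A.decompositionSubgroup ℚ)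
    (hres : ∀ x ∈ A, (∀ s ∈ S, s x = x) → σ x - x ∈ A.nonunits) : σ ∈ S := by
  haveI := Fermat.Agent.H53.isGalois_algebraicClosure_rat
  obtain ⟨δ, hδS, hδ⟩ := Fermat.Agent.H8.exists_mem_inv_mul_mem_inertia S hS
    (Fact.out : l.Prime) A hA σ hσ hres
  have : σ = δ * (δ⁻¹ * σ) := by group
  rw [this]
  exact mul_mem hδS (hIS hδ)

/-- finiteness of `D / S` -/
theorem pub_finite_quotient (A : ValuationSubring Qb) (S : Subgroup GQ)
    (E : IntermediateField ℚ Qb) [FiniteDimensional ℚ E]
    (hE : ∀ σ ∈ A.decompositionSubgroup ℚ, (∀ x ∈ E, σ x = x) → σ ∈ S) :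
    Finite ((A.decompositionSubgroup ℚ) ⧸ S.subgroupOf (A.decompositionSubgroup ℚ)) := by
  haveI := Fermat.Agent.H53.isGalois_algebraicClosure_rat
  haveI : Finite (GQ ⧸ (E.fixingSubgroup : Subgroup GQ)) :=
    Subgroup.quotient_finite_of_isOpen _ (IntermediateField.fixingSubgroup_isOpen E)
  haveI : (E.fixingSubgroup : Subgroup GQ).FiniteIndex := Subgroup.finiteIndex_of_finite_quotient
  haveI : ((E.fixingSubgroup : Subgroup GQ).subgroupOf (A.decompositionSubgroup ℚ)).FiniteIndex :=
    inferInstance
  have hle : (E.fixingSubgroup : Subgroup GQ).subgroupOf (A.decompositionSubgroup ℚ) ≤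
      S.subgroupOf (A.decompositionSubgroup ℚ) := by
    intro τ hτ
    rw [Subgroup.mem_subgroupOf] at hτ ⊢
    exact hE τ τ.2 fun x hx => (IntermediateField.mem_fixingSubgroup_iff E _).mp hτ x hx
  haveI := Subgroup.finiteIndex_of_le hle
  exact Subgroup.finite_quotient_of_finiteIndex

/-- The monoid of `S`-fixed elements of `A`. -/
def pubFixMonoid (A : ValuationSubring Qb) (S : Subgroup GQ) : Submonoid A where
  carrier := {x | ∀ s ∈ S, s (x : Qb) = x}
  one_mem' := fun s _ => by simp
  mul_mem' := by
    intro a b ha hb s hs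
    simp only [Set.mem_ofPred_eq] at ha hb
    rw [MulMemClass.coe_mul, map_mul, ha s hs, hb s hs]

theorem pub_mem_fixMonoid {A : ValuationSubring Qb} {S : Subgroup GQ} {x : A} :
    x ∈ pubFixMonoid A S ↔ ∀ s ∈ S, s (x : Qb) = x := Iff.rfl

/-- the action of the decomposition group on `A`, in coordinates -/
theorem pub_coe_smul (A : ValuationSubring Qb) (σ : A.decompositionSubgroup ℚ) (x : A) :
    ((σ • x : A) : Qb) = (σ : GQ) (x : Qb) := rfl

/-- **FF-P2.** Trace-dual bases for the unramified extensions at every place of `ℚ̄`. -/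
theorem placeUnrBasis (l : ℕ) [Fact l.Prime] (A : ValuationSubring (AlgebraicClosure ℚ))
    (hA : A.LiesOverPrime l) : Fermat.Agent.H72.FF.PlaceUnrBasis A := by
  classical
  rintro S hIS hSD ⟨E, hEfin, hE⟩
  haveI := hEfin
  have hSclosed := pub_isClosed_of_le A S hSD E hE
  haveI : Finite ((A.decompositionSubgroup ℚ) ⧸ S.subgroupOf (A.decompositionSubgroup ℚ)) :=
    pub_finite_quotient A S E hE
  letI : Fintype ((A.decompositionSubgroup ℚ) ⧸ S.subgroupOf (A.decompositionSubgroup ℚ)) :=
    Fintype.ofFinite _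
  -- the characters `φ q : A^S → k`
  let φ : ((A.decompositionSubgroup ℚ) ⧸ S.subgroupOf (A.decompositionSubgroup ℚ)) →
      ((pubFixMonoid A S) →* IsLocalRing.ResidueField A) := fun q =>
    ((IsLocalRing.residue A : A →* IsLocalRing.ResidueField A).comp
      (MulSemiringAction.toRingHom (A.decompositionSubgroup ℚ) A q.out : A →* A)).comp
      (pubFixMonoid A S).subtype
  have hφ_apply : ∀ q (x : pubFixMonoid A S),
      φ q x = IsLocalRing.residue A (q.out • (x : A)) := fun _ _ => rfl
  have hφinj : Function.Injective φ := by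
    intro q q' h
    rw [← QuotientGroup.out_eq' q, ← QuotientGroup.out_eq' q', QuotientGroup.eq,
      Subgroup.mem_subgroupOf]
    have hD : ((q.out⁻¹ * q'.out : A.decompositionSubgroup ℚ) : GQ) ∈
        A.decompositionSubgroup ℚ := (q.out⁻¹ * q'.out).2
    refine pub_mem_of_residue_trivial l A hA S hIS hSclosed hD fun x hx hxS => ?_
    have h1 := DFunLike.congr_fun h ⟨⟨x, hx⟩, hxS⟩
    rw [hφ_apply, hφ_apply, eq_comm, ← sub_eq_zero, ← map_sub,
      IsLocalRing.residue_eq_zero_iff, ← ValuationSubring.coe_mem_nonunits_iff] at h1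
    have h2 : ((q.out⁻¹ * q'.out : A.decompositionSubgroup ℚ) : GQ) x - x =
        ((q.out⁻¹ : A.decompositionSubgroup ℚ) : GQ)
          ((q'.out : GQ) x - (q.out : GQ) x) := by
      rw [map_sub]
      congr 1
      show x = ((q.out : GQ)⁻¹) ((q.out : GQ) x)
      rw [← AlgEquiv.mul_apply, inv_mul_cancel, AlgEquiv.one_apply]
    rw [h2, Fermat.Agent.H8.apply_mem_nonunits_iff_of_mem_decomposition A (q.out⁻¹).2]
    exact h1
  have hLI : LinearIndependent (IsLocalRing.ResidueField A)
      (fun q => (φ q : pubFixMonoid A S → IsLocalRing.ResidueField A)) :=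
    (linearIndependent_monoidHom (pubFixMonoid A S) (IsLocalRing.ResidueField A)).comp φ hφinj
  obtain ⟨x, hx⟩ := pub_exists_det_ne_zero _ hLI
  -- the matrix `B = (σ_q θ_j)` over `A`
  let B : Matrix ((A.decompositionSubgroup ℚ) ⧸ S.subgroupOf (A.decompositionSubgroup ℚ))
      ((A.decompositionSubgroup ℚ) ⧸ S.subgroupOf (A.decompositionSubgroup ℚ)) A :=
    Matrix.of fun q j => q.out • (x j : A)
  have hBdet : IsUnit B.det := by
    rw [← IsLocalRing.residue_ne_zero_iff_isUnit]
    have : IsLocalRing.residue A B.det = (Matrix.of fun q j => φ q (x j)).det := by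
      rw [RingHom.map_det]
      rfl
    rw [this]
    exact hx
  have hBB : B * B⁻¹ = 1 := Matrix.mul_nonsing_inv B hBdet
  let q₀ : (A.decompositionSubgroup ℚ) ⧸ S.subgroupOf (A.decompositionSubgroup ℚ) :=
    ((1 : A.decompositionSubgroup ℚ) : _)
  let θ : ((A.decompositionSubgroup ℚ) ⧸ S.subgroupOf (A.decompositionSubgroup ℚ)) → Qb :=
    fun j => ((x j : A) : Qb)
  let θ' : ((A.decompositionSubgroup ℚ) ⧸ S.subgroupOf (A.decompositionSubgroup ℚ)) → Qb :=
    fun j => ((B⁻¹ j q₀ : A) : Qb)
  have hθS : ∀ j, ∀ s ∈ S, s (θ j) = θ j := fun j s hs => (x j).2 s hs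
  have key : ∀ q, ∑ j, ((B q j : A) : Qb) * θ' j = if q = q₀ then 1 else 0 := by
    intro q
    have h := congrFun (congrFun hBB q) q₀
    rw [Matrix.mul_apply, Matrix.one_apply] at h
    have h' := congrArg (fun a : A => (a : Qb)) h
    simp only [AddSubmonoidClass.coe_finsetSum, MulMemClass.coe_mul] at h'
    rw [h']
    split_ifs <;> simp
  have hσθ : ∀ (σ : A.decompositionSubgroup ℚ) j,
      (σ : GQ) (θ j) = ((B (QuotientGroup.mk σ) j : A) : Qb) := by
    intro σ j
    obtain ⟨s, hs⟩ := QuotientGroup.mk_out_eq_mul (S.subgroupOf (A.decompositionSubgroup ℚ)) σ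
    show _ = ((((QuotientGroup.mk σ : (A.decompositionSubgroup ℚ) ⧸
      S.subgroupOf (A.decompositionSubgroup ℚ)).out • (x j : A) : A)) : Qb)
    rw [hs, pub_coe_smul]
    show _ = (σ : GQ) (((s : A.decompositionSubgroup ℚ) : GQ) (θ j))
    rw [hθS j _ (Subgroup.mem_subgroupOf.mp s.2)]
  have hmemS : ∀ σ : A.decompositionSubgroup ℚ,
      ((σ : (A.decompositionSubgroup ℚ) ⧸ S.subgroupOf (A.decompositionSubgroup ℚ)) = q₀ ↔
        (σ : GQ) ∈ S) := by
    intro σ
    rw [QuotientGroup.eq, Subgroup.mem_subgroupOf]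
    constructor
    · intro h
      have := inv_mem h
      simpa using this
    · intro h
      have := inv_mem h
      simpa using this
  have main : ∀ σ ∈ A.decompositionSubgroup ℚ,
      ∑ j, θ' j * σ (θ j) = if σ ∈ S then 1 else 0 := by
    intro σ hσ
    have h1 := key ((⟨σ, hσ⟩ : A.decompositionSubgroup ℚ) : _)
    have h2 : ∀ j, θ' j * σ (θ j) =
        ((B ((⟨σ, hσ⟩ : A.decompositionSubgroup ℚ) : _) j : A) : Qb) * θ' j := by
      intro j
      rw [← hσθ ⟨σ, hσ⟩ j, mul_comm]
    rw [Finset.sum_congr rfl fun j _ => h2 j, h1]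
    by_cases h : σ ∈ S
    · rw [if_pos h, if_pos ((hmemS ⟨σ, hσ⟩).mpr h)]
    · rw [if_neg h, if_neg (fun h' => h ((hmemS ⟨σ, hσ⟩).mp h'))]
  have hθ'S : ∀ j, ∀ s ∈ S, s (θ' j) = θ' j := by
    intro j s hs
    let BQ : Matrix ((A.decompositionSubgroup ℚ) ⧸ S.subgroupOf (A.decompositionSubgroup ℚ))
        ((A.decompositionSubgroup ℚ) ⧸ S.subgroupOf (A.decompositionSubgroup ℚ)) Qb :=
      B.map (A.subtype)
    have hdet : BQ.det ≠ 0 := by
      have : BQ.det = A.subtype B.det := by
        rw [RingHom.map_det]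
        rfl
      rw [this]
      exact (hBdet.map A.subtype).ne_zero
    have hv : BQ.mulVec (fun j => s (θ' j) - θ' j) = 0 := by
      funext q
      simp only [Matrix.mulVec, dotProduct, Pi.zero_apply]
      have hq : ∀ j, BQ q j = ((q.out : A.decompositionSubgroup ℚ) : GQ) (θ j) := fun j => rfl
      have e1 : ∑ j, BQ q j * θ' j = if q = q₀ then 1 else 0 := key q
      have e2 : ∑ j, BQ q j * s (θ' j) = if q = q₀ then 1 else 0 := by
        have hD : s⁻¹ * (q.out : GQ) ∈ A.decompositionSubgroup ℚ :=
          mul_mem (inv_mem (hSD hs)) q.out.2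
        have h3 := main _ hD
        have h4 := congrArg s h3
        rw [map_sum] at h4
        have h5 : ∀ j, s (θ' j * (s⁻¹ * (q.out : GQ)) (θ j)) = BQ q j * s (θ' j) := by
          intro j
          rw [map_mul, hq, mul_comm]
          congr 1
          show s (s⁻¹ ((q.out : GQ) (θ j))) = _
          rw [← AlgEquiv.mul_apply, mul_inv_cancel, AlgEquiv.one_apply]
        rw [Finset.sum_congr rfl fun j _ => h5 j] at h4
        rw [h4]
        have h7 : ((q.out : GQ) ∈ S) ↔ q = q₀ := by
          rw [← hmemS q.out, QuotientGroup.out_eq']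
        have h6 : (s⁻¹ * (q.out : GQ) ∈ S) ↔ q = q₀ := by
          rw [← h7]
          constructor
          · intro h
            have := mul_mem hs h
            simpa using this
          · intro h
            exact mul_mem (inv_mem hs) h
        by_cases h : q = q₀
        · rw [if_pos h, if_pos (h6.mpr h), map_one]
        · rw [if_neg h, if_neg (fun h' => h (h6.mp h')), map_zero]
      calc ∑ j, BQ q j * (s (θ' j) - θ' j)
          = ∑ j, BQ q j * s (θ' j) - ∑ j, BQ q j * θ' j := by
            rw [← Finset.sum_sub_distrib]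
            exact Finset.sum_congr rfl fun j _ => mul_sub _ _ _
        _ = 0 := by rw [e1, e2, sub_self]
    have := Matrix.eq_zero_of_mulVec_eq_zero hdet hv
    have := congrFun this j
    exact sub_eq_zero.mp this
  -- reindex by `Fin n`
  let e := Fintype.equivFin ((A.decompositionSubgroup ℚ) ⧸ S.subgroupOf (A.decompositionSubgroup ℚ))
  refine ⟨_, θ ∘ e.symm, θ' ∘ e.symm, ?_, ?_, ?_⟩
  · intro j
    exact ⟨(x (e.symm j) : A).2, (B⁻¹ (e.symm j) q₀).2⟩
  · intro j s hs
    exact ⟨hθS _ s hs, hθ'S _ s hs⟩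
  · intro σ hσ inst
    have := main σ hσ
    rw [← Equiv.sum_comp e.symm] at this
    simp only [Function.comp_apply]
    rw [this]
    by_cases h : σ ∈ S
    · rw [if_pos h, if_pos h]
    · rw [if_neg h, if_neg h]

end Fermat.Agent.H65
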